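import Mathlib.Tactic

/-!
# Rational points on the curve `52a : w² = t (t² + 6 t + 13)`

The only rational point with finite coordinates has `t = 0`: an elementary 2-descent
reducing to the quartic `s⁴ + 6 s² e² + 13 e⁴ = r²`, killed by infinite descent on `|e|`.
-/

set_option autoImplicit false

namespace Fermat.Agent.Mazur.Thirteen

/-- Coprime naturals with a fourth-power product are fourth powers. -/
theorem exists_fourth_of_mul_eq {P Q : ℤ} {k : ℤ} (hP : 0 ≤ P) (hQ : 0 ≤ Q)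
    (hc : IsCoprime P Q) (h : P * Q = k ^ 4) : ∃ u : ℕ, P = (u : ℤ) ^ 4 := by
  lift P to ℕ using hP
  lift Q to ℕ using hQ
  have h' : P * Q = k.natAbs ^ 4 := by
    have := congrArg Int.natAbs h
    simpa [Int.natAbs_mul, Int.natAbs_pow] using this
  have hc' : IsUnit (gcd P Q) := by
    rw [Nat.isUnit_iff, gcd_eq_nat_gcd]
    exact Nat.isCoprime_iff_coprime.mp hc
  obtain ⟨u, hu⟩ := exists_eq_pow_of_mul_eq_pow hc' h'
  exact ⟨u, by exact_mod_cast hu⟩

theorem quartic_odd_odd (s e r : ZMod 32) (hs : (s.val % 2 = 1)) (he : e.val % 2 = 1) :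
    s ^ 4 + 6 * s ^ 2 * e ^ 2 + 13 * e ^ 4 ≠ r ^ 2 := by
  have hsq : ∀ t : ZMod 32, t.val % 2 = 1 → t ^ 2 ∈ [1, 9, 17, 25] := by decide +kernel
  have key : ∀ a ∈ ([1, 9, 17, 25] : List (ZMod 32)), ∀ b ∈ ([1, 9, 17, 25] : List (ZMod 32)),
      ∀ r : ZMod 32, a ^ 2 + 6 * a * b + 13 * b ^ 2 ≠ r ^ 2 := by decide +kernel
  convert key (s ^ 2) (hsq s hs) (e ^ 2) (hsq e he) r using 1
  ring

/-- In a solution `s ^ 2 + 3 e ^ 2` is odd. -/
private theorem odd_sq_add_of_quartic {s e r : ℤ} (hc : IsCoprime s e)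
    (h : s ^ 4 + 6 * s ^ 2 * e ^ 2 + 13 * e ^ 4 = r ^ 2) : Odd (s ^ 2 + 3 * e ^ 2) := by
  -- not both odd
  have hnot : Even s ∨ Even e := by
    by_contra hh
    rw [not_or, Int.not_even_iff_odd, Int.not_even_iff_odd] at hh
    have hv : ∀ z : ℤ, Odd z → (z : ZMod 32).val % 2 = 1 := by
      intro z hz
      have h1 : ((z : ZMod 32).val : ℤ) = z % 32 := ZMod.val_intCast z
      have h2 := Int.odd_iff.mp hz
      omega
    refine quartic_odd_odd (s : ZMod 32) (e : ZMod 32) (r : ZMod 32) (hv s hh.1) (hv e hh.2) ?_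
    exact_mod_cast congrArg (fun z : ℤ => (z : ZMod 32)) h
  rcases hnot with hs | hee
  · have he' : Odd e := by
      rcases Int.even_or_odd e with h' | h'
      · exfalso
        have h2 := hc.isUnit_of_dvd' hs.two_dvd h'.two_dvd
        norm_num [Int.isUnit_iff] at h2
      · exact h'
    exact (hs.pow_of_ne_zero two_ne_zero).add_odd ((by decide : Odd (3 : ℤ)).mul he'.pow)
  · have hs' : Odd s := by
      rcases Int.even_or_odd s with h' | h'
      · exfalso
        have h2 := hc.isUnit_of_dvd' h'.two_dvd hee.two_dvd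
        norm_num [Int.isUnit_iff] at h2
      · exact h'
    exact (hs'.pow).add_even ((hee.pow_of_ne_zero two_ne_zero).mul_left _)

/-- The factors of `13 k ^ 4` with sum `C` prime to `k` are coprime. -/
private theorem isCoprime_of_mul_eq {A B C k : ℤ} (hsum : C = A + B) (hAB : A * B = 13 * k ^ 4)
    (hCk : IsCoprime C k) : IsCoprime A B := by
  refine Int.isCoprime_iff_gcd_eq_one.mpr ?_
  by_contra hne
  obtain ⟨q, hq, hqd⟩ := Nat.exists_prime_and_dvd hne
  have hqA : (q : ℤ) ∣ A := (Int.natCast_dvd_natCast.mpr hqd).trans (Int.gcd_dvd_left A B)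
  have hqB : (q : ℤ) ∣ B := (Int.natCast_dvd_natCast.mpr hqd).trans (Int.gcd_dvd_right A B)
  have hq' : Prime (q : ℤ) := Nat.prime_iff_prime_int.mp hq
  have hqC : (q : ℤ) ∣ C := by
    rw [hsum]; exact dvd_add hqA hqB
  have hq2 : (q : ℤ) ^ 2 ∣ 13 * k ^ 4 := by
    rw [← hAB, sq]; exact mul_dvd_mul hqA hqB
  have hqk : IsCoprime ((q : ℤ) ^ 2) (k ^ 4) := (hCk.of_isCoprime_of_dvd_left hqC).pow
  have := Int.natAbs_dvd_natAbs.mpr (hqk.dvd_of_dvd_mul_right hq2)
  simp only [Int.natAbs_pow, Int.natAbs_natCast] at this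
  have h13 : q ^ 2 ≤ 13 := Nat.le_of_dvd (by norm_num) this
  have := hq.two_le
  have : q ≤ 3 := by nlinarith
  interval_cases q <;> omega

/-- Coprime factors `A`, `B` of `13 k ^ 4` with `13 ∣ B` and `A + B = u ^ 2 - 6 k ^ 2` give a
smaller solution. -/
private theorem exists_smaller_solution {e k A B : ℤ} {u v : ℕ} (hk : (v : ℤ) = k + k) (hk0 : k ≠ 0)
    (hu0 : (u : ℤ) ≠ 0) (he2 : e ^ 2 = ((u : ℤ) * v) ^ 2) (hAB : A * B = 13 * k ^ 4)
    (hcop : IsCoprime A B) (hsum : (u : ℤ) ^ 2 - 6 * k ^ 2 = A + B) (h13 : (13 : ℤ) ∣ B) :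
    ∃ g h u : ℤ, h ≠ 0 ∧ h.natAbs < e.natAbs ∧ IsCoprime g h ∧
      g ^ 4 + 6 * g ^ 2 * h ^ 2 + 13 * h ^ 4 = u ^ 2 := by
  obtain ⟨B', rfl⟩ := h13
  have hAB' : A * B' = k ^ 4 := by linarith [show A * (13 * B') = 13 * (A * B') by ring]
  have hcop' : IsCoprime A B' := hcop.of_mul_right_right
  have hk4 : 0 < A * B' := by rw [hAB']; positivity
  -- The coprime factors have one sign.
  rcases pos_and_pos_or_neg_and_neg_of_mul_pos hk4 with ⟨hA0, hB0⟩ | ⟨hA0, hB0⟩
  -- Positive: they are fourth powers `g⁴`, `13 h⁴`, a smaller solution.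
  · obtain ⟨g, hg⟩ := exists_fourth_of_mul_eq hA0.le hB0.le hcop' hAB'
    obtain ⟨h, hh⟩ := exists_fourth_of_mul_eq hB0.le hA0.le hcop'.symm
      (by rw [mul_comm]; exact hAB')
    have hk2 : k ^ 2 = ((g : ℤ) * h) ^ 2 := by
      have : (k ^ 2) ^ 2 = (((g : ℤ) * h) ^ 2) ^ 2 := by
        rw [← pow_mul, show k ^ (2 * 2) = A * B' by rw [hAB'], hg, hh]; ring
      exact (pow_left_inj₀ (sq_nonneg _) (sq_nonneg _) two_ne_zero).mp this
    have hkabs : k.natAbs = g * h := by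
      have := congrArg Int.natAbs hk2
      simp only [Int.natAbs_pow, Int.natAbs_mul, Int.natAbs_natCast] at this
      exact Nat.pow_left_injective two_ne_zero this
    have hh0 : h ≠ 0 := by rintro rfl; simp at hkabs; exact hk0 (by omega)
    have hg0 : g ≠ 0 := by rintro rfl; simp at hkabs; exact hk0 (by omega)
    refine ⟨g, h, u, by exact_mod_cast hh0, ?_, ?_, ?_⟩
    · have heabs : e.natAbs = u * v := by
        have := congrArg Int.natAbs he2
        simp only [Int.natAbs_pow, Int.natAbs_mul, Int.natAbs_natCast] at this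
        exact Nat.pow_left_injective two_ne_zero this
      have hvk : v = 2 * k.natAbs := by omega
      have hu1 : 1 ≤ u := by omega
      have hg1 : 1 ≤ g := by omega
      rw [Int.natAbs_natCast, heabs, hvk, hkabs]
      calc h < 2 * h := by omega
        _ ≤ u * (2 * (g * h)) := by
          calc 2 * h = 1 * (2 * (1 * h)) := by ring
            _ ≤ u * (2 * (g * h)) := by gcongr
    · rw [hg, hh] at hcop'
      exact (IsCoprime.pow_iff (by norm_num) (by norm_num)).mp hcop'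
    · rw [hg, hh, hk2] at hsum
      linarith [show ((g : ℤ) * h) ^ 2 = (g : ℤ) ^ 2 * (h : ℤ) ^ 2 by ring]
  · exfalso
    obtain ⟨g, hg⟩ := exists_fourth_of_mul_eq (neg_nonneg.mpr hA0.le) (neg_nonneg.mpr hB0.le)
      hcop'.neg_neg (by rw [neg_mul_neg]; exact hAB')
    obtain ⟨h, hh⟩ := exists_fourth_of_mul_eq (neg_nonneg.mpr hB0.le) (neg_nonneg.mpr hA0.le)
      hcop'.symm.neg_neg (by rw [neg_mul_neg, mul_comm]; exact hAB')
    have hk2 : k ^ 2 = ((g : ℤ) * h) ^ 2 := by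
      have : (k ^ 2) ^ 2 = (((g : ℤ) * h) ^ 2) ^ 2 := by
        rw [← pow_mul, show k ^ (2 * 2) = (-A) * (-B') by rw [neg_mul_neg, hAB'], hg, hh]; ring
      exact (pow_left_inj₀ (sq_nonneg _) (sq_nonneg _) two_ne_zero).mp this
    -- Negative: the sum `u² - 6 k²` would be too small.
    nlinarith [sq_nonneg ((g : ℤ) ^ 2 - 3 * (h : ℤ) ^ 2), sq_nonneg ((h : ℤ) ^ 2)]

/-- In a solution of `u⁴ - 3 u² v² - v⁴ = s²` with `u⁴ - v⁴` odd, `u` is odd and `v` is even. -/
private theorem parity_of_quartic {u v s : ℤ} (hs2 : u ^ 4 - 3 * u ^ 2 * v ^ 2 - v ^ 4 = s ^ 2)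
    (hd : Odd (u ^ 4 - v ^ 4)) : Odd u ∧ Even v := by
  rcases Int.even_or_odd u with hu' | hu'
  · exfalso
    have hv' : Odd v := by
      rcases Int.even_or_odd v with hv' | hv'
      · exact (Int.not_even_iff_odd.mpr hd ((hu'.pow_of_ne_zero (by norm_num)).sub
          (hv'.pow_of_ne_zero
          (by norm_num)))).elim
      · exact hv'
    obtain ⟨c, hc2⟩ := hu'
    obtain ⟨d, hd2⟩ := hv'
    have key : ∀ c d s : ZMod 4,
        (c + c) ^ 4 - 3 * (c + c) ^ 2 * (2 * d + 1) ^ 2 - (2 * d + 1) ^ 4 ≠ s ^ 2 := by decide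
    rw [hc2, hd2] at hs2
    exact key (c : ZMod 4) (d : ZMod 4) (s : ZMod 4)
      (by exact_mod_cast congrArg (fun z : ℤ => (z : ZMod 4)) hs2)
  · refine ⟨hu', ?_⟩
    rcases Int.even_or_odd v with hv' | hv'
    · exact hv'
    · exfalso; exact Int.not_even_iff_odd.mpr hd ((hu'.pow).sub_odd hv'.pow)

/-- One step: from `s⁴ + 6 s² e² + 13 e⁴ = r²` to a solution of the same equation with smaller `e`.
-/
theorem quartic_descent_step {s e r : ℤ} (he : e ≠ 0) (hc : IsCoprime s e)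
    (h : s ^ 4 + 6 * s ^ 2 * e ^ 2 + 13 * e ^ 4 = r ^ 2) :
    ∃ g k u : ℤ, k ≠ 0 ∧ k.natAbs < e.natAbs ∧ IsCoprime g k ∧
      g ^ 4 + 6 * g ^ 2 * k ^ 2 + 13 * k ^ 4 = u ^ 2 := by
  set a := s ^ 2 + 3 * e ^ 2 with ha
  have hodd : Odd a := odd_sq_add_of_quartic hc h
  wlog hr : 0 ≤ r generalizing r with H
  · exact H (r := -r) (by rw [h]; ring) (by omega)
  have hsq : a ^ 2 + 4 * e ^ 4 = r ^ 2 := by rw [← h, ha]; ring
  have hrodd : Odd r := by
    have : Odd (r ^ 2) := by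
      rw [← hsq]; exact hodd.pow.add_even ((by decide : Even (4 : ℤ)).mul_right _)
    exact (Int.odd_pow' two_ne_zero).mp this
  obtain ⟨P, hP⟩ : Even (r + a) := hrodd.add_odd hodd
  obtain ⟨Q, hQ⟩ : Even (r - a) := hrodd.sub_odd hodd
  have hPQ : P * Q = e ^ 4 := by
    have e1 : (r + a) * (r - a) = (P + P) * (Q + Q) := by rw [hP, hQ]
    linarith [show (r + a) * (r - a) = r ^ 2 - a ^ 2 by ring,
      show (P + P) * (Q + Q) = 4 * (P * Q) by ring]
  have hale : |a| ≤ r := by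
    have : a ^ 2 ≤ r ^ 2 := by rw [← hsq]; nlinarith [sq_nonneg (e ^ 2)]
    calc |a| ≤ |r| := sq_le_sq.mp this
      _ = r := abs_of_nonneg hr
  have hP0 : 0 ≤ P := by have := abs_le.mp hale; omega
  have hQ0 : 0 ≤ Q := by have := abs_le.mp hale; omega
  have hae : IsCoprime a e := by
    have : IsCoprime (s ^ 2) e := hc.pow_left
    have h3 := this.add_mul_left_left (3 * e)
    rw [ha, show s ^ 2 + 3 * e ^ 2 = s ^ 2 + e * (3 * e) by ring]; exact h3
  have hcop : IsCoprime P Q := by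
    have h1 : IsCoprime a (e ^ 4) := hae.pow_right
    rw [← hPQ] at h1
    have h2 : a = P + Q * (-1) := by omega
    have h3 := h1.of_mul_right_right
    rw [h2] at h3
    exact (IsCoprime.add_mul_left_left_iff).mp h3
  obtain ⟨u, hu⟩ := exists_fourth_of_mul_eq hP0 hQ0 hcop hPQ
  obtain ⟨v, hv⟩ := exists_fourth_of_mul_eq hQ0 hP0 hcop.symm (by rw [mul_comm]; exact hPQ)
  have he2 : e ^ 2 = ((u : ℤ) * v) ^ 2 := by
    have : (e ^ 2) ^ 2 = (((u : ℤ) * v) ^ 2) ^ 2 := by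
      rw [← pow_mul]; rw [show e ^ (2 * 2) = P * Q by rw [hPQ], hu, hv]; ring
    exact (pow_left_inj₀ (sq_nonneg _) (sq_nonneg _) two_ne_zero).mp this
  have hu0 : (u : ℤ) ≠ 0 := by
    intro h0; rw [h0] at he2; exact he (by simpa using he2)
  have hv0 : (v : ℤ) ≠ 0 := by
    intro h0; rw [h0] at he2; exact he (by simpa using he2)
  have hs2 : (u : ℤ) ^ 4 - 3 * u ^ 2 * v ^ 2 - (v : ℤ) ^ 4 = s ^ 2 := by
    have : a = P - Q := by omega
    rw [hu, hv, ha, he2] at this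
    linarith [show 3 * ((u : ℤ) * v) ^ 2 = 3 * (u : ℤ) ^ 2 * (v : ℤ) ^ 2 by ring]
  have huv : IsCoprime (u : ℤ) v := by
    rw [hu, hv] at hcop
    exact (IsCoprime.pow_iff (by norm_num) (by norm_num)).mp hcop
  -- parity: `u` odd, `v` even
  have hpar : Odd (u : ℤ) ∧ Even (v : ℤ) := by
    refine parity_of_quartic hs2 ?_
    rwa [show (u : ℤ) ^ 4 - (v : ℤ) ^ 4 = a by omega]
  obtain ⟨k, hk⟩ := hpar.2
  set C := (u : ℤ) ^ 2 - 6 * k ^ 2 with hC
  have hCs : C ^ 2 - s ^ 2 = 52 * k ^ 4 := by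
    rw [← hs2, hC, hk]; ring
  have hCodd : Odd C := by
    rw [hC]; exact hpar.1.pow.sub_even ((by decide : Even (6 : ℤ)).mul_right _)
  have hsodd : Odd s := by
    have : Odd (s ^ 2) := by
      rw [show s ^ 2 = C ^ 2 - 52 * k ^ 4 by linarith]
      have h52 : Even (52 * k ^ 4) := (by decide : Even (52 : ℤ)).mul_right _
      exact (hCodd.pow).sub_even h52
    exact (Int.odd_pow' two_ne_zero).mp this
  obtain ⟨A, hA⟩ : Even (C + s) := hCodd.add_odd hsodd
  obtain ⟨B, hB⟩ : Even (C - s) := hCodd.sub_odd hsodd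
  have hAB : A * B = 13 * k ^ 4 := by
    have e1 : (C + s) * (C - s) = (A + A) * (B + B) := by rw [hA, hB]
    linarith [show (C + s) * (C - s) = C ^ 2 - s ^ 2 by ring,
      show (A + A) * (B + B) = 4 * (A * B) by ring]
  have hk0 : k ≠ 0 := by rintro rfl; exact hv0 (by simpa using hk)
  have hCk : IsCoprime C k := by
    have h1 : IsCoprime (u : ℤ) k := by
      rw [hk, ← two_mul] at huv; exact huv.of_mul_right_right
    have h2 := (h1.pow_left (m := 2)).add_mul_left_left (-6 * k)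
    rw [hC, show (u : ℤ) ^ 2 - 6 * k ^ 2 = (u : ℤ) ^ 2 + k * (-6 * k) by ring]; exact h2
  have hABcop : IsCoprime A B :=
    isCoprime_of_mul_eq (by omega) hAB hCk
  -- `{A, B} = {ε g⁴, 13 ε h⁴}`
  have hmain : ∀ A B : ℤ, A * B = 13 * k ^ 4 → IsCoprime A B → C = A + B → (13 : ℤ) ∣ B →
      ∃ g h u : ℤ, h ≠ 0 ∧ h.natAbs < e.natAbs ∧ IsCoprime g h ∧
        g ^ 4 + 6 * g ^ 2 * h ^ 2 + 13 * h ^ 4 = u ^ 2 :=
    fun A B hAB hcop hsum h13 => exists_smaller_solution hk hk0 hu0 he2 hAB hcop hsum h13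
  have h13 : (13 : ℤ) ∣ A * B := ⟨k ^ 4, hAB⟩
  rcases (Int.prime_iff_natAbs_prime.mpr (by norm_num : Nat.Prime (13 : ℤ).natAbs)).dvd_or_dvd h13
    with h' | h'
  · exact hmain B A (by rw [mul_comm]; exact hAB) hABcop.symm (by omega) h'
  · exact hmain A B hAB hABcop (by omega) h'

theorem quartic_eq_zero {s e r : ℤ} (hc : IsCoprime s e)
    (h : s ^ 4 + 6 * s ^ 2 * e ^ 2 + 13 * e ^ 4 = r ^ 2) : e = 0 := by
  induction hn : e.natAbs using Nat.strong_induction_on generalizing s e r with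
  | _ n ih =>
    by_contra he
    obtain ⟨g, k, u, hk, hlt, hgk, hu⟩ := quartic_descent_step he hc h
    exact hk (ih _ (hn ▸ hlt) hgk hu rfl)

/-- The only affine rational point of `w² = t (t² + 6 t + 13)` has `t = 0`. -/
theorem eq_zero_of_sq_eq {t w : ℚ} (h : w ^ 2 = t * (t ^ 2 + 6 * t + 13)) : t = 0 := by
  by_contra ht
  set M : ℤ := t.num with hM
  set N : ℤ := (t.den : ℤ) with hN
  have hN0 : 0 < N := by positivity
  have hMN : IsCoprime M N := by
    rw [Int.isCoprime_iff_gcd_eq_one]; exact t.reduced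
  set q : ℤ := M ^ 2 + 6 * M * N + 13 * N ^ 2 with hq
  have ht' : t = (M : ℚ) / N := by rw [hM, hN]; exact_mod_cast t.num_div_den.symm
  have hN0' : (N : ℚ) ≠ 0 := by exact_mod_cast hN0.ne'
  -- With `t = M / N`, the product `N * (M * q)` is a square with coprime factors, so `N = e ^ 2`
  -- and `M * q` is a square.
  obtain ⟨Y, hY⟩ : IsSquare (N * (M * q)) := by
    rw [← Rat.isSquare_intCast_iff]
    refine ⟨w * N ^ 2, ?_⟩
    rw [show w * (N : ℚ) ^ 2 * (w * (N : ℚ) ^ 2) = w ^ 2 * (N : ℚ) ^ 4 by ring, h, ht', hq]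
    push_cast
    field_simp
  have hqN : IsCoprime N q := by
    have h1 := (hMN.symm.pow_right (n := 2)).add_mul_left_right (6 * M + 13 * N)
    rw [hq, show M ^ 2 + 6 * M * N + 13 * N ^ 2 = M ^ 2 + N * (6 * M + 13 * N) by ring]; exact h1
  have hqpos : 0 < q := by rw [hq]; nlinarith [sq_nonneg (M + 3 * N)]
  have hM0 : M ≠ 0 := Rat.num_ne_zero.mpr ht
  have hnonneg : ∀ a b : ℤ, 0 < a → IsCoprime a b → (∃ y, a * b = y * y) → ∃ r, a = r ^ 2 := by
    rintro a b ha hab ⟨y, hy⟩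
    obtain ⟨a0, h0⟩ := Int.sq_of_gcd_eq_one (Int.isCoprime_iff_gcd_eq_one.mp hab)
      (show a * b = y ^ 2 by rw [hy, sq])
    exact ⟨a0, h0.resolve_right (by nlinarith [sq_nonneg a0])⟩
  have hcopN : IsCoprime N (M * q) := hMN.symm.mul_right hqN
  obtain ⟨e, he⟩ := hnonneg N (M * q) hN0 hcopN ⟨Y, hY⟩
  have hMq : 0 < M * q := by
    have h1 : M * q ≠ 0 := mul_ne_zero hM0 hqpos.ne'
    exact lt_of_le_of_ne (by nlinarith) h1.symm
  obtain ⟨R, hR⟩ := hnonneg (M * q) N hMq hcopN.symm ⟨Y, by rw [mul_comm]; exact hY⟩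
  have hMpos : 0 < M := pos_of_mul_pos_left hMq hqpos.le
  have he0 : e ≠ 0 := by rintro rfl; simp at he; omega
  -- Either `M = 13 s ^ 2`, or `M = s ^ 2`; in both cases the quartic gives a contradiction.
  by_cases h13 : (13 : ℤ) ∣ M
  · obtain ⟨M', hM'⟩ := h13
    set q' : ℤ := 13 * M' ^ 2 + 6 * M' * N + N ^ 2 with hq'
    have hqq' : q = 13 * q' := by rw [hq, hq', hM']; ring
    have hM'N : IsCoprime M' N := by rw [hM'] at hMN; exact hMN.of_mul_left_right
    have hcop : IsCoprime M' q' := by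
      have h1 := (hM'N.pow_right (n := 2)).add_mul_left_right (13 * M' + 6 * N)
      rw [hq', show 13 * M' ^ 2 + 6 * M' * N + N ^ 2 = N ^ 2 + M' * (13 * M' + 6 * N) by ring];
      exact h1
    have h13R : (13 : ℤ) ∣ R := by
      refine (Int.prime_iff_natAbs_prime.mpr
        (by norm_num : Nat.Prime (13 : ℤ).natAbs)).dvd_of_dvd_pow
        (n := 2) ⟨M' * q, ?_⟩
      rw [← hR, hM']; ring
    obtain ⟨R', hR'⟩ := h13R
    have hM'q' : M' * q' = R' ^ 2 := by
      rw [hM', hqq', hR'] at hR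
      linarith [show 13 * M' * (13 * q') = 169 * (M' * q') by ring,
        show (13 * R') ^ 2 = 169 * R' ^ 2 by ring]
    obtain ⟨s, hs⟩ := hnonneg M' q' (by omega) hcop ⟨R', by rw [← sq]; exact hM'q'⟩
    obtain ⟨r, hr⟩ := hnonneg q' M' (by omega) hcop.symm ⟨R', by rw [mul_comm, ← sq]; exact hM'q'⟩
    have hse : IsCoprime e s := by
      rw [he, hs] at hM'N
      exact ((IsCoprime.pow_iff (by norm_num) (by norm_num)).mp hM'N).symm
    have := quartic_eq_zero hse (r := r) (by rw [← hr, hq', hs, he]; ring)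
    rw [this] at hs; simp at hs; omega
  · have hcop : IsCoprime M q := by
      have h13' : IsCoprime M 13 :=
        ((Int.prime_iff_natAbs_prime.mpr
          (by norm_num : Nat.Prime (13 : ℤ).natAbs)).coprime_iff_not_dvd.mpr h13).symm
      have h1 := (h13'.mul_right (hMN.pow_right (n := 2))).add_mul_left_right (M + 6 * N)
      rw [hq, show M ^ 2 + 6 * M * N + 13 * N ^ 2 = 13 * N ^ 2 + M * (M + 6 * N) by ring]; exact h1
    obtain ⟨s, hs⟩ := hnonneg M q hMpos hcop ⟨R, by rw [hR, sq]⟩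
    obtain ⟨r, hr⟩ := hnonneg q M hqpos hcop.symm ⟨R, by rw [mul_comm, hR, sq]⟩
    have hse : IsCoprime s e := by
      rw [he, hs] at hMN
      exact (IsCoprime.pow_iff (by norm_num) (by norm_num)).mp hMN
    exact he0 (quartic_eq_zero hse (r := r) (by rw [← hr, hq, hs, he]; ring))

end Fermat.Agent.Mazur.Thirteen
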