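import Fermat.Agent.Mazur.Thirteen.Point
import Fermat.Agent.Mazur.Thirteen.Descent
import Fermat.Agent.Mazur.Small.Frey
import Fermat.Agent.Mazur.Small.Line
import Fermat.Agent.EC.Torsion.Galois

/-!
# No Galois-stable line in the 13-torsion of a curve with square discriminant

`not_hasGaloisStableCofixedLine_thirteen` (S10), the Frey curve being such a curve:

1. A stable line gives a rational value `t ≠ 0` of the Hauptmodul of `X₀(13)`, expressing `c₆²` by
   `Δ` and `t` (`exists_thirteen_parameter`, from `Point`).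
2. With `Δ` a square this is a rational point of `w² = t (t² + 6 t + 13)`, as the sextic factor
   has no rational root (`cPoly_ne_zero`).
3. That curve only has the point with `t = 0` (`Descent`).
-/

set_option autoImplicit false

open WeierstrassCurve WeierstrassCurve.Affine WeierstrassCurve.Affine.Point

namespace Fermat.Agent.Mazur.Thirteen

variable {W : WeierstrassCurve.Affine ℚ}

lemma pointThirteen_smul (σ : AlgebraicClosure ℚ ≃ₐ[ℚ] AlgebraicClosure ℚ)
    (P : (W⁄(AlgebraicClosure ℚ)).Point) : pointThirteen (σ • P) = σ (pointThirteen P) := by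
  rcases P with _ | ⟨x, y, h⟩
  · exact (_root_.map_zero σ).symm
  · rw [algEquiv_smul_def, Point.map_some, pointThirteen_some, pointThirteen_some]
    calc _ = hauptBC (σ (Small.tateB (W⁄(AlgebraicClosure ℚ)) x y))
          (σ (Small.tateC (W⁄(AlgebraicClosure ℚ)) x y)) :=
        congrArg₂ hauptBC (Small.tateB_algEquiv x y W σ) (Small.tateC_algEquiv x y W σ)
      _ = _ := by
        simp only [hauptBC, hauptT, modelX, map_div₀, map_neg, map_mul, map_sub, map_add, map_pow,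
          _root_.map_one, map_ofNat]

/-- A Galois-stable cyclic subgroup of order 13 gives a rational point on `X₀(13)`. -/
theorem exists_thirteen_parameter {P : (W⁄(AlgebraicClosure ℚ)).Point} (hP : P ≠ 0)
    (h13 : (13 : ℕ) • P = 0)
    (hgal : ∀ σ : AlgebraicClosure ℚ ≃ₐ[ℚ] AlgebraicClosure ℚ, ∃ k : ℕ, σ • P = k • P) :
    ∃ t : ℚ, W.c₆ ^ 2 * t = W.Δ * dPoly t * cPoly t ^ 2 ∧ (W.Δ ≠ 0 → t ≠ 0) := by
  obtain ⟨t, ht⟩ := Small.exists_algebraMap_eq hP hgal (pointThirteen_smul · P)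
    fun _ => pointThirteen_nsmul h13
  obtain ⟨h1, h2⟩ := pointThirteen_relation hP h13
  have hc : (W⁄(AlgebraicClosure ℚ)).c₆ = algebraMap ℚ (AlgebraicClosure ℚ) W.c₆ :=
    WeierstrassCurve.map_c₆ ..
  have hd : (W⁄(AlgebraicClosure ℚ)).Δ = algebraMap ℚ (AlgebraicClosure ℚ) W.Δ :=
    WeierstrassCurve.map_Δ ..
  refine ⟨t, (algebraMap ℚ (AlgebraicClosure ℚ)).injective ?_, fun h0 ht0 => ?_⟩
  · rw [← ht, hc, hd] at h1
    simpa [dPoly, cPoly, map_ofNat] using h1
  · refine h2 ?_ (by rw [← ht, ht0, _root_.map_zero])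
    rw [hd]
    simpa using h0

/-- The sextic `cPoly` has no rational root. -/
theorem cPoly_ne_zero (t : ℚ) : cPoly t ≠ 0 := by
  intro h0
  have hd0 : (t.den : ℚ) ≠ 0 := by exact_mod_cast t.den_ne_zero
  have hQ : (t.num : ℚ) ^ 6 + 10 * t.num ^ 5 * t.den + 46 * t.num ^ 4 * t.den ^ 2
      + 108 * t.num ^ 3 * t.den ^ 3 + 122 * t.num ^ 2 * t.den ^ 4 + 38 * t.num * t.den ^ 5
      - (t.den : ℚ) ^ 6 = 0 := by
    rw [cPoly] at h0
    conv at h0 => lhs; rw [← t.num_div_den]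
    field_simp at h0
    linear_combination h0
  have hZ : t.num ^ 6 + 10 * t.num ^ 5 * (t.den : ℤ) + 46 * t.num ^ 4 * (t.den : ℤ) ^ 2
      + 108 * t.num ^ 3 * (t.den : ℤ) ^ 3 + 122 * t.num ^ 2 * (t.den : ℤ) ^ 4
      + 38 * t.num * (t.den : ℤ) ^ 5 - (t.den : ℤ) ^ 6 = 0 := by exact_mod_cast hQ
  have hcop : IsCoprime t.num (t.den : ℤ) := t.isCoprime_num_den
  have hn : IsUnit t.num := by
    refine (hcop.pow_right (n := 6)).isUnit_of_dvd' dvd_rfl ?_
    exact ⟨t.num ^ 5 + 10 * t.num ^ 4 * (t.den : ℤ) + 46 * t.num ^ 3 * (t.den : ℤ) ^ 2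
      + 108 * t.num ^ 2 * (t.den : ℤ) ^ 3 + 122 * t.num * (t.den : ℤ) ^ 4
      + 38 * (t.den : ℤ) ^ 5, by linear_combination -hZ⟩
  have hd : IsUnit (t.den : ℤ) := by
    refine (hcop.symm.pow_right (n := 6)).isUnit_of_dvd' dvd_rfl ?_
    exact ⟨-(10 * t.num ^ 5 + 46 * t.num ^ 4 * (t.den : ℤ)
      + 108 * t.num ^ 3 * (t.den : ℤ) ^ 2 + 122 * t.num ^ 2 * (t.den : ℤ) ^ 3
      + 38 * t.num * (t.den : ℤ) ^ 4 - (t.den : ℤ) ^ 5), by linear_combination hZ⟩
  have hd1 : (t.den : ℤ) = 1 := by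
    rcases Int.isUnit_iff.1 hd with h | h <;> omega
  rw [hd1] at hZ
  rcases Int.isUnit_iff.1 hn with h | h <;> (rw [h] at hZ; norm_num at hZ)

/-- An elliptic curve over `ℚ` with square discriminant has no Galois-stable 13-line. -/
theorem no_stable_line_thirteen [W.IsElliptic] {δ : ℚ} (hδ : W.Δ = δ ^ 2)
    {N : Submodule (ZMod 13) (Submodule.torsionBy ℤ (W⁄(AlgebraicClosure ℚ)).Point ((13 : ℕ) : ℤ))}
    (hst : IsGaloisStable ℚ N) (hbot : N ≠ ⊥) (htop : N ≠ ⊤) : False := by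
  obtain ⟨P, hP, h13, hgal⟩ := Small.exists_point_of_stable_line W (by norm_num)
    (EC.Torsion.natCard_torsionBy_algebraicClosureRat W (by norm_num)) hst hbot htop
  obtain ⟨t, h1, h2⟩ := exists_thirteen_parameter hP h13 hgal
  have hΔ : W.Δ ≠ 0 := W.isUnit_Δ.ne_zero
  have hδ0 : δ ≠ 0 := by rintro rfl; exact hΔ (by rw [hδ]; ring)
  refine h2 hΔ (eq_zero_of_sq_eq (w := W.c₆ * t / (δ * cPoly t)) ?_)
  rw [div_pow, div_eq_iff (pow_ne_zero 2 (mul_ne_zero hδ0 (cPoly_ne_zero t)))]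
  rw [hδ, dPoly] at h1
  linear_combination t * h1

/-- For `p = 13` the Frey curve has no Galois-stable cofixed line. -/
theorem not_hasGaloisStableCofixedLine_thirteen (P : FreyPackage) (hp : P.p = 13) :
    ¬ HasGaloisStableCofixedLine (K := AlgebraicClosure ℚ) ℚ P.freyCurve P.p := by
  have key : ∀ p : ℕ, p = 13 →
      ¬ HasGaloisStableCofixedLine (K := AlgebraicClosure ℚ) ℚ P.freyCurve p := by
    rintro p rfl ⟨N, hst, hbot, htop, -⟩
    have := Small.frey_isElliptic P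
    exact no_stable_line_thirteen (Small.frey_delta_square P) hst hbot htop
  exact key P.p hp

end Fermat.Agent.Mazur.Thirteen
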